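import Mathlib
import Fermat.Prelude.Def_FLTPrelim_FreyPackage

set_option autoImplicit false

namespace Fermat.Agent.S01

/-- FLT from the two Frey-package statements (S02 and S03) together with Mathlib's n = 3, 4. -/
theorem flt_of_frey
    (h2 : ∀ (a b c : ℤ), a ≠ 0 → b ≠ 0 → c ≠ 0 → ∀ (p : ℕ), p.Prime → 5 ≤ p →
      a ^ p + b ^ p = c ^ p → Nonempty FreyPackage)
    (h3 : FreyPackage → False)
    (n : ℕ) (hn : 3 ≤ n) (a b c : ℕ) (ha : 0 < a) (hb : 0 < b) (hc : 0 < c) :
    a ^ n + b ^ n ≠ c ^ n := by
  have key : FermatLastTheorem := by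
    apply FermatLastTheorem.of_odd_primes
    intro p pp hodd
    by_cases h3' : p = 3
    · subst h3'; exact fermatLastTheoremThree
    have h5 : 5 ≤ p := by
      have h2' := pp.two_le
      rcases hodd with ⟨k, hk⟩
      by_contra hlt
      have : p = 2 ∨ p = 3 ∨ p = 4 := by omega
      rcases this with h | h | h
      · omega
      · exact h3' h
      · omega
    rw [fermatLastTheoremFor_iff_int]
    intro a b c ha hb hc H
    obtain ⟨P⟩ := h2 a b c ha hb hc p pp h5 H
    exact h3 P
  exact key n hn a b c ha.ne' hb.ne' hc.ne'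

end Fermat.Agent.S01
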